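import Fermat.Agent.DedekindOscillation.Identity

/-!
# Bounds for `ψ_K x - x` and half planes free of zeros

A two-sided bound `O (x ^ γ)` keeps the zeros out of `re s > γ`; a one-sided bound does so when
there are no real zeros in `(γ, 1)`; conversely the explicit formula gives `O_ε (x ^ (γ + ε))`.
-/

set_option autoImplicit false
set_option linter.style.haveILetI false
set_option linter.unusedSectionVars false

noncomputable section

universe u

open Complex Filter Topology Set Asymptotics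
open NumberField Module
open FA.DedekindPIT (mangoldtK psiK)
open FA.DedekindZeroCount (cleared differentiable_cleared cleared_spec cleared_ne_zero_right
  mem_stripZeros_iff discLog)
open scoped Real Classical

namespace FA.DedekindOscillation

variable (K : Type u) [Field K] [NumberField K]

/-- **A two-sided bound keeps the zeros out.** -/
theorem cleared_ne_zero_of_bigO {γ : ℝ} (hγ : 0 ≤ γ)
    (h : (fun n : ℕ => psiErr K n) =O[atTop] fun n : ℕ => (n : ℝ) ^ γ) {ρ : ℂ} (hρ : γ < ρ.re) :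
    cleared K ρ ≠ 0 := by
  intro h0
  obtain ⟨Gn, Gd, hGn, hGd, hd0, hn0, -, hid⟩ := exists_quotient K h0
  obtain ⟨b, hb⟩ : ∃ b : ℕ → ℂ, b = fun n => (psiErr K n : ℂ) := ⟨_, rfl⟩
  have habs : LSeries.abscissaOfAbsConv b ≤ ((γ + 1 : ℝ) : EReal) := by
    have h' : b =O[atTop] fun n : ℕ => (n : ℝ) ^ γ :=
      hb ▸ (isBigO_norm_left.1 (h.norm_left.congr_left fun n => (Complex.norm_real _).symm))
    exact (LSeries.abscissaOfAbsConv_le_of_isBigO_rpow h').trans_eq (by norm_cast)
  obtain ⟨F, hF⟩ : ∃ F : ℂ → ℂ, F = fun z => LSeries b (z + 1) := ⟨_, rfl⟩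
  have hFd : DifferentiableOn ℂ F {z | γ < z.re} := fun z hz => by
    have hz' : γ < z.re := hz
    rw [hF]
    refine DifferentiableAt.differentiableWithinAt (DifferentiableAt.fun_comp' z ?_
      (differentiableAt_id.add_const 1))
    refine (LSeries_differentiableOn b).differentiableAt ((isOpen_re_gt_EReal _).mem_nhds ?_)
    refine lt_of_le_of_lt habs ?_
    rw [EReal.coe_lt_coe_iff]
    simp only [add_re, one_re]
    linarith
  have hUo : IsOpen {z : ℂ | γ < z.re} := isOpen_lt continuous_const continuous_re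
  have hA : AnalyticOnNhd ℂ (fun z => Gd z * F z) {z | γ < z.re} :=
    (hGd.differentiableOn.mul hFd).analyticOnNhd hUo
  have hB : AnalyticOnNhd ℂ (fun z => Gn z + errReg K z * Gd z) {z | γ < z.re} :=
    (hGn.differentiableOn.add ((differentiableOn_errReg K hγ).mul
      hGd.differentiableOn)).analyticOnNhd hUo
  have hev : (fun z => Gd z * F z) =ᶠ[𝓝 ((max γ 1 + 1 : ℝ) : ℂ)]
      fun z => Gn z + errReg K z * Gd z := by
    filter_upwards [(isOpen_lt continuous_const Complex.continuous_re).mem_nhds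
      (show max γ 1 < ((max γ 1 + 1 : ℝ) : ℂ).re by simp)] with z hz
    obtain ⟨hne, hsum⟩ := hid z (lt_of_le_of_lt (le_max_right _ _) hz)
    have hFz : F z = Gn z / Gd z + errReg K z := by
      rw [hF, ← hsum.tsum_eq]
      simp only [LSeries]
      refine tsum_congr fun n => ?_
      rcases Nat.eq_zero_or_pos n with rfl | hn
      · simp [psiErr, psiK]
      rw [LSeries.term_of_ne_zero hn.ne', hb, cpow_neg, div_eq_mul_inv]
    rw [hFz, mul_add, mul_div_cancel₀ _ hne, mul_comm (Gd z)]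
  have heq := hA.eqOn_of_preconnected_of_eventuallyEq hB
    (convex_halfSpace_re_gt γ).isPreconnected
    (show γ < ((max γ 1 + 1 : ℝ) : ℂ).re by simp; linarith [le_max_left γ 1]) hev hρ
  simp only [hd0, zero_mul, mul_zero, add_zero] at heq
  exact hn0 heq.symm

/-- **A one-sided bound keeps the zeros out**, without real zeros in `(γ, 1)`. -/
theorem cleared_ne_zero_of_one_sided {γ C e : ℝ} (hγ : 0 ≤ γ) (hγ1 : γ < 1) (he : e ≠ 0)
    (hreal : ∀ x : ℝ, γ < x → x < 1 → cleared K x ≠ 0)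
    (h : ∀ᶠ n : ℕ in atTop, e * psiErr K n ≤ C * (n : ℝ) ^ γ) {ρ : ℂ} (hρ : γ < ρ.re) :
    cleared K ρ ≠ 0 := by
  intro h0
  obtain ⟨Gn, Gd, hGn, hGd, hd0, hn0, hx0, hid⟩ := exists_quotient K h0
  refine hn0 (FA.OneSided.numerator_eq_zero_of_one_sided hγ1 he h hGn.differentiableOn
    hGd.differentiableOn (differentiableOn_errReg K hγ) (fun x hx => hx0 x (by linarith) ?_) hid
    hρ hd0)
  rcases lt_or_ge x 1 with hx1 | hx1
  · exact hreal x hx hx1
  · exact cleared_ne_zero_right K (by simpa using hx1)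

/-- A zero in the strip gives one at `1 - ρ`. -/
theorem cleared_reflect {ρ : ℂ} (h : cleared K ρ = 0) (h0 : 0 < ρ.re) (h1 : ρ.re < 1) :
    cleared K (1 - ρ) = 0 ∧ 0 < (1 - ρ).re ∧ (1 - ρ).re < 1 := by
  obtain ⟨hx, -⟩ := (mem_stripZeros_iff K (T := |ρ.im|) (ρ := ρ)).1 ⟨h, h0, h1, le_rfl⟩
  obtain ⟨g, g0, g1, -⟩ := (mem_stripZeros_iff K (T := |(1 - ρ).im|) (ρ := 1 - ρ)).2
    ⟨by rw [FA.HeckeBS.xiFun_one_sub K ρ, hx], le_rfl⟩
  exact ⟨g, g0, g1⟩

/-- **No zeros right of `θ` gives `O_ε (x ^ (θ + ε))`.** -/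
theorem isBigO_of_zero_free {θ : ℝ} (hθ : 1 / 2 ≤ θ) (hθ1 : θ < 1)
    (h : ∀ ρ : ℂ, θ < ρ.re → cleared K ρ ≠ 0) {ε : ℝ} (hε : 0 < ε) :
    (fun x : ℝ => psiK K x - x) =O[atTop] fun x : ℝ => x ^ (θ + ε) := by
  obtain ⟨A, hA, hmain⟩ := FA.DedekindExplicit.exists_psiK_sharp.{u}
  have hz : FA.DedekindExplicit.ZerosLeftOf K θ := fun ρ hρ => by
    obtain ⟨g, -, -, -⟩ := (mem_stripZeros_iff K (T := |ρ.im|)).2 ⟨hρ, le_rfl⟩
    exact le_of_not_gt fun hlt => h ρ hlt g
  have hlog := (isLittleO_log_rpow_atTop (half_pos hε)).isBigO.pow 2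
  refine (IsBigO.of_bound (A / (1 - θ) * (|discLog K| + finrank ℚ K)) ?_).trans
    (((isBigO_refl (fun t : ℝ => t ^ θ) atTop).mul hlog).congr' EventuallyEq.rfl ?_)
  · filter_upwards [eventually_ge_atTop 4] with x hx
    refine (le_of_eq (Real.norm_eq_abs _)).trans ((hmain K θ hθ hθ1 hz x (by linarith)).trans ?_)
    have hl : 1 ≤ Real.log x := by
      rw [← Real.log_exp 1]
      exact Real.log_le_log (Real.exp_pos 1) (by linarith [Real.exp_one_lt_d9])
    rw [Real.norm_of_nonneg (by positivity), mul_assoc (A / (1 - θ))]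
    refine mul_le_mul_of_nonneg_left ?_ (div_nonneg hA (by linarith))
    have h1 : 0 ≤ x ^ θ * Real.log x := mul_nonneg (Real.rpow_nonneg (by linarith) _) (by linarith)
    refine le_trans (mul_le_mul_of_nonneg_left (show discLog K + finrank ℚ K * Real.log x ≤
      (|discLog K| + finrank ℚ K) * Real.log x from ?_) h1) (le_of_eq (by ring))
    have := le_mul_of_one_le_right (abs_nonneg (discLog K)) hl
    linarith [le_abs_self (discLog K)]
  · filter_upwards [eventually_gt_atTop 0] with t ht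
    rw [← Real.rpow_natCast, ← Real.rpow_mul ht.le, ← Real.rpow_add ht]
    push_cast
    ring_nf

/-- **The criterion.** -/
theorem psiK_iff_zero_free {θ : ℝ} (hθ : 1 / 2 ≤ θ) (hθ1 : θ < 1) :
    (∀ ρ : ℂ, θ < ρ.re → cleared K ρ ≠ 0) ↔
      ∀ ε : ℝ, 0 < ε → (fun x : ℝ => psiK K x - x) =O[atTop] fun x : ℝ => x ^ (θ + ε) := by
  refine ⟨fun h _ hε => isBigO_of_zero_free K hθ hθ1 h hε, fun h ρ hρ => ?_⟩
  refine cleared_ne_zero_of_bigO K (γ := θ + (ρ.re - θ) / 2) (by linarith) ?_ (by linarith)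
  exact (h _ (by linarith)).comp_tendsto tendsto_natCast_atTop_atTop

end FA.DedekindOscillation

end
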