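import Fermat.Agent.DedekindExplicit.Psi
import Fermat.Agent.DedekindZeroCount.Main
import Fermat.Agent.OneSided.Defect
import Fermat.Agent.OneSided.Landau

/-!
# The Dirichlet series of `ψ_K n - n`

With `E` the continuation of `(s - 1) ζ_K`, for `1 < re z` the series of `(ψ_K n - n) n ^ (-(z+1))`
is `R z - E' z / (z E z)` with `R` holomorphic in `0 < re z`; at a point `ρ` of order `m` it is
`Gn / Gd + R` with `Gn ρ = -m q ρ` and `Gd ρ = 0`.
-/

set_option autoImplicit false
set_option linter.style.haveILetI false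
set_option linter.unusedSectionVars false

noncomputable section

universe u

open Complex Filter Topology Set
open NumberField Module
open FA.DedekindPIT (mangoldtK psiK)
open FA.DedekindZeroCount (cleared differentiable_cleared cleared_spec cleared_ne_zero_right)
open FA.OneSided (summatory defect)
open scoped Real Classical

namespace FA.DedekindOscillation

variable (K : Type u) [Field K] [NumberField K]

/-- `ψ_K n - n`. -/
def psiErr (n : ℕ) : ℝ := psiK K n - n

/-- `Λ_K n - 1`. -/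
def errCoeff (n : ℕ) : ℂ := (mangoldtK K n : ℂ) - 1

theorem summatory_errCoeff (n : ℕ) : summatory (errCoeff K) n = (psiErr K n : ℂ) := by
  rw [summatory, psiErr, psiK, Nat.floor_natCast]
  simp [errCoeff, Finset.sum_sub_distrib]

/-- A bound for `|ψ_K n - n| / n`. -/
def errConst : ℝ := finrank ℚ K * (Real.log 4 + 4) + 1

theorem abs_psiErr_le (n : ℕ) : |psiErr K n| ≤ errConst K * n := by
  have h1 := FA.DedekindPIT.psiK_le (K := K) (x := n) (Nat.cast_nonneg n)
  have h2 : 0 ≤ psiK K n := Finset.sum_nonneg fun k _ => FA.DedekindPIT.mangoldtK_nonneg K k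
  have h3 : 0 ≤ (finrank ℚ K : ℝ) * ((Real.log 4 + 4) * n) := by
    have := Real.log_nonneg (show (1 : ℝ) ≤ 4 by norm_num)
    positivity
  rw [psiErr, errConst, abs_le, add_mul, one_mul, mul_assoc]
  constructor <;> linarith [Nat.cast_nonneg (α := ℝ) n]

theorem norm_summatory_errCoeff_le (n : ℕ) (_ : 0 < n) :
    ‖summatory (errCoeff K) n‖ ≤ errConst K * (n : ℝ) ^ (1 : ℝ) := by
  rw [summatory_errCoeff, Complex.norm_real, Real.norm_eq_abs, Real.rpow_one]
  exact abs_psiErr_le K n

/-- The holomorphic part. -/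
def errReg (z : ℂ) : ℂ := (defect (errCoeff K) z - riemannZeta₀ z) / z

theorem differentiableAt_errReg {z : ℂ} (hz : 0 < z.re) : DifferentiableAt ℂ (errReg K) z :=
  (((FA.OneSided.differentiableOn_defect (norm_summatory_errCoeff_le K)
    zero_le_one).differentiableAt
    ((isOpen_lt continuous_const continuous_re).mem_nhds
      (show (1 : ℝ) - 1 < z.re by linarith))).sub (differentiable_riemannZeta₀ z)).div
    differentiableAt_id fun h => by
      rw [show z = 0 from h] at hz
      simp at hz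

theorem differentiableOn_errReg {γ : ℝ} (hγ : 0 ≤ γ) :
    DifferentiableOn ℂ (errReg K) {z | γ < z.re} := fun _ hz =>
  (differentiableAt_errReg K (lt_of_le_of_lt hγ hz)).differentiableWithinAt

/-- **The identity.** -/
theorem hasSum_psiErr {z : ℂ} (hz : 1 < z.re) :
    HasSum (fun n : ℕ => (psiErr K n : ℂ) * (n : ℂ) ^ (-(z + 1)))
      (errReg K z - deriv (cleared K) z / cleared K z / z) := by
  obtain ⟨hs, hL⟩ := FA.DedekindPIT.LSeries_mangoldtK (differentiable_cleared K)
    (fun s hs => cleared_spec K hs) hz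
  have h1 : LSeriesSummable 1 z := LSeriesSummable_one_iff.2 hz
  have he : errCoeff K = (fun n => (mangoldtK K n : ℂ)) - 1 := funext fun _ => rfl
  have hsum : LSeriesSummable (errCoeff K) z := he ▸ hs.sub h1
  have hne : z ≠ 1 := fun h => by simp [h] at hz
  have hval : LSeries (errCoeff K) z = -(deriv (cleared K) z / cleared K z) - riemannZeta₀ z := by
    rw [he, LSeries_sub hs h1, hL, LSeries_one_eq_riemannZeta hz, riemannZeta_eq_inv_sub_add hne]
    ring
  have h := FA.OneSided.hasSum_summatory (norm_summatory_errCoeff_le K) zero_le_one le_rfl hz hsum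
  simp only [summatory_errCoeff, hval] at h
  convert h using 1
  rw [errReg]
  ring

theorem order_cleared_ne_top (ρ : ℂ) : analyticOrderAt (cleared K) ρ ≠ ⊤ := by
  refine ((differentiable_cleared K).differentiableOn.analyticOnNhd
    isOpen_univ).analyticOrderAt_ne_top_of_isPreconnected isPreconnected_univ (x := (2 : ℂ))
    (mem_univ _) (mem_univ _) ?_
  rw [analyticOrderAt_eq_zero.2 (Or.inr (cleared_ne_zero_right K (by norm_num)))]
  exact ENat.zero_ne_top

/-- `E z = (z - ρ) ^ m q z` with `q` entire and `q ρ ≠ 0`. -/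
theorem exists_factor (ρ : ℂ) : ∃ q : ℂ → ℂ, Differentiable ℂ q ∧ q ρ ≠ 0 ∧
    ∀ z, cleared K z = (z - ρ) ^ analyticOrderNatAt (cleared K) ρ * q z := by
  have hd := differentiable_cleared K
  obtain ⟨g, hg, hg0, heq⟩ :=
    ((hd.analyticAt ρ).analyticOrderAt_ne_top.1 (order_cleared_ne_top K ρ))
  generalize analyticOrderNatAt (cleared K) ρ = m at heq ⊢
  obtain ⟨q, hq⟩ : ∃ q : ℂ → ℂ, q = fun z => if z = ρ then g ρ else cleared K z / (z - ρ) ^ m :=
    ⟨_, rfl⟩
  refine ⟨q, fun z => ?_, by simpa [hq] using hg0, fun z => ?_⟩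
  · by_cases hz : z = ρ
    · subst hz
      refine hg.differentiableAt.congr_of_eventuallyEq ?_
      filter_upwards [heq] with w hw
      rw [hq]
      simp only
      split_ifs with hwz
      · rw [hwz]
      · rw [hw, smul_eq_mul, mul_div_cancel_left₀ _ (pow_ne_zero _ (sub_ne_zero.2 hwz))]
    · refine ((hd z).div ((differentiableAt_id.sub_const ρ).pow m)
        (pow_ne_zero _ (sub_ne_zero.2 hz))).congr_of_eventuallyEq ?_
      filter_upwards [eventually_ne_nhds hz] with w hw
      simp [hq, hw]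
  · rw [hq]
    simp only
    split_ifs with hz
    · rw [hz]
      simpa using heq.eq_of_nhds
    · rw [mul_div_cancel₀ _ (pow_ne_zero _ (sub_ne_zero.2 hz))]

theorem order_pos_of_zero {ρ : ℂ} (h : cleared K ρ = 0) :
    analyticOrderNatAt (cleared K) ρ ≠ 0 := fun e => by
  obtain ⟨q, -, hq0, hq⟩ := exists_factor K ρ
  rw [hq, e, pow_zero, one_mul] at h
  exact hq0 h

/-- `(z - ρ) E'/E` for `E z = (z - ρ) ^ m q z`. -/
theorem logDeriv_of_factor {ρ : ℂ} {m : ℕ} {q : ℂ → ℂ} (hq : Differentiable ℂ q)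
    (hfac : ∀ z, cleared K z = (z - ρ) ^ m * q z) {z : ℂ} (hz : z ≠ ρ) (hqz : q z ≠ 0) :
    deriv (cleared K) z / cleared K z =
      ((m : ℂ) * q z + (z - ρ) * deriv q z) / ((z - ρ) * q z) := by
  have hne : z - ρ ≠ 0 := sub_ne_zero.2 hz
  have hd : deriv (cleared K) z = (m : ℂ) * (z - ρ) ^ (m - 1) * q z + (z - ρ) ^ m * deriv q z := by
    rw [show cleared K = fun w => (w - ρ) ^ m * q w from funext hfac]
    have h1 : HasDerivAt (fun w : ℂ => (w - ρ) ^ m) ((m : ℂ) * (z - ρ) ^ (m - 1)) z := by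
      simpa using ((hasDerivAt_id z).sub_const ρ).fun_pow m
    exact (h1.mul (hq z).hasDerivAt).deriv
  rw [hd, hfac z]
  rcases Nat.eq_zero_or_pos m with rfl | hm
  · simp only [Nat.cast_zero, zero_mul, pow_zero, one_mul, zero_add]
    field_simp
  · obtain ⟨k, rfl⟩ := Nat.exists_eq_succ_of_ne_zero hm.ne'
    simp only [Nat.add_sub_cancel, Nat.succ_eq_add_one, pow_succ]
    field_simp

/-- **The identity at a zero.** -/
theorem exists_quotient {ρ : ℂ} (hρ : cleared K ρ = 0) :
    ∃ Gn Gd : ℂ → ℂ, Differentiable ℂ Gn ∧ Differentiable ℂ Gd ∧ Gd ρ = 0 ∧ Gn ρ ≠ 0 ∧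
      (∀ x : ℝ, 0 < x → cleared K x ≠ 0 → Gd x ≠ 0) ∧
      ∀ z : ℂ, 1 < z.re → Gd z ≠ 0 ∧
        HasSum (fun n : ℕ => (psiErr K n : ℂ) * (n : ℂ) ^ (-(z + 1)))
          (Gn z / Gd z + errReg K z) := by
  obtain ⟨q, hq, hq0, hfac⟩ := exists_factor K ρ
  obtain ⟨m, hm⟩ : ∃ m, m = analyticOrderNatAt (cleared K) ρ := ⟨_, rfl⟩
  have hm0 : m ≠ 0 := hm ▸ order_pos_of_zero K hρ
  rw [← hm] at hfac
  have hne : ∀ z, cleared K z ≠ 0 → z - ρ ≠ 0 ∧ q z ≠ 0 := fun z hz => by
    rw [hfac, mul_ne_zero_iff, pow_ne_zero_iff hm0] at hz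
    exact hz
  refine ⟨fun z => -((m : ℂ) * q z + (z - ρ) * deriv q z), fun z => z * ((z - ρ) * q z),
    fun z => (((hq z).const_mul _).add ((differentiableAt_id.sub_const ρ).mul (hq.deriv z))).neg,
    fun z => differentiableAt_id.mul ((differentiableAt_id.sub_const ρ).mul (hq z)),
    by simp, by simp [hm0, hq0], fun x hx hE => ?_, fun z hz => ?_⟩
  · obtain ⟨a, b⟩ := hne _ hE
    exact mul_ne_zero (ofReal_ne_zero.2 hx.ne') (mul_ne_zero a b)
  · obtain ⟨a, b⟩ := hne z (cleared_ne_zero_right K hz.le)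
    have hz0 : z ≠ 0 := fun h => by simp [h] at hz; linarith
    refine ⟨mul_ne_zero hz0 (mul_ne_zero a b), ?_⟩
    have h := hasSum_psiErr K hz
    rw [logDeriv_of_factor K hq hfac (sub_ne_zero.1 a) b] at h
    convert h using 1
    rw [div_div, mul_comm ((z - ρ) * q z) z]
    ring

end FA.DedekindOscillation

end
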