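import Fermat.Agent.DedekindOscillation.Identity

/-!
# The orders on the boundary line of a one-sided bound

If `e (ψ_K n - n) ≤ C n ^ α`, `|e| = 1`, and `ζ_K` has no real zero in `(α, 1)`, the series of the
difference has nonnegative coefficients and converges right of `α`, so its residue at a point of
`re s = α` is at most that at `α`: `m_ρ / |ρ| ≤ C + e m_α / α`.
-/

set_option autoImplicit false
set_option linter.style.haveILetI false
set_option linter.unusedSectionVars false

noncomputable section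

universe u

open Complex Filter Topology Set
open NumberField Module
open FA.DedekindPIT (mangoldtK psiK)
open FA.DedekindZeroCount (cleared differentiable_cleared cleared_spec cleared_ne_zero_right)
open scoped Real Classical ComplexOrder

namespace FA.DedekindOscillation

variable (K : Type u) [Field K] [NumberField K]

/-- `t E'(s + t)/E(s + t) → m_s`. -/
theorem tendsto_logDeriv (s : ℂ) :
    (∀ᶠ t : ℝ in 𝓝[>] 0, cleared K (s + t) ≠ 0) ∧
    Tendsto (fun t : ℝ => (t : ℂ) * (deriv (cleared K) (s + t) / cleared K (s + t))) (𝓝[>] 0)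
      (𝓝 (analyticOrderNatAt (cleared K) s : ℂ)) := by
  obtain ⟨q, hq, hq0, hfac⟩ := exists_factor K s
  obtain ⟨m, hm⟩ : ∃ m, m = analyticOrderNatAt (cleared K) s := ⟨_, rfl⟩
  rw [← hm] at hfac ⊢
  have hs : Tendsto (fun t : ℝ => s + t) (𝓝[>] 0) (𝓝 s) :=
    ((continuous_const.add Complex.continuous_ofReal).tendsto' 0 s (by simp)).mono_left
      nhdsWithin_le_nhds
  have hev : ∀ᶠ t : ℝ in 𝓝[>] 0, 0 < t ∧ q (s + t) ≠ 0 :=
    (eventually_mem_nhdsWithin.mono fun t ht => (show (0 : ℝ) < t from ht)).and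
      (((hq.continuous.tendsto s).comp hs).eventually_ne hq0)
  refine ⟨hev.mono fun t ht => ?_, ?_⟩
  · rw [hfac, add_sub_cancel_left]
    exact mul_ne_zero (pow_ne_zero _ (ofReal_ne_zero.2 ht.1.ne')) ht.2
  have hc : ContinuousAt (fun z => (m : ℂ) + (z - s) * (deriv q z / q z)) s :=
    continuousAt_const.add ((continuousAt_id.sub continuousAt_const).mul
      ((hq.deriv s).continuousAt.div (hq s).continuousAt hq0))
  have hlim := hc.tendsto.comp hs
  simp only [sub_self, zero_mul, add_zero] at hlim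
  refine hlim.congr' (hev.mono fun t ht => ?_)
  have ht0 : (t : ℂ) ≠ 0 := ofReal_ne_zero.2 ht.1.ne'
  simp only [Function.comp_apply]
  rw [logDeriv_of_factor K hq hfac (by simpa using ht0) ht.2, add_sub_cancel_left]
  field_simp [ht.2]

/-- **The residue inequality.** -/
theorem residue_le {α C e : ℝ} (hα : 0 < α) (hα1 : α < 1) (he : |e| = 1)
    (hreal : ∀ x : ℝ, α < x → x < 1 → cleared K x ≠ 0)
    (h : ∀ᶠ n : ℕ in atTop, e * psiErr K n ≤ C * (n : ℝ) ^ α) :
    0 ≤ C + e * analyticOrderNatAt (cleared K) (α : ℂ) / α ∧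
    ∀ ρ : ℂ, ρ.re = α → ρ.im ≠ 0 →
      (analyticOrderNatAt (cleared K) ρ : ℝ) ≤
        ‖ρ‖ * (C + e * analyticOrderNatAt (cleared K) (α : ℂ) / α) := by
  obtain ⟨N, hN⟩ := eventually_atTop.1 h
  obtain ⟨c, hc⟩ : ∃ c : ℕ → ℂ, c = fun n : ℕ => ((C * (n : ℝ) ^ α - e * psiErr K n : ℝ) : ℂ) :=
    ⟨_, rfl⟩
  obtain ⟨b, hb⟩ : ∃ b, b = FA.Signs.removed c (Finset.range N) := ⟨_, rfl⟩
  have hb0 : 0 ≤ b := fun n => by
    simp only [hb, FA.Signs.removed, Pi.zero_apply]
    split_ifs with h
    · exact le_rfl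
    · rw [hc, Complex.zero_le_real]
      rw [Finset.mem_range, not_lt] at h
      linarith [hN n h]
  obtain ⟨P, hP⟩ : ∃ P : ℂ → ℂ, P = fun w => ∑ n ∈ Finset.range N, LSeries.term c w n := ⟨_, rfl⟩
  have hPd : Differentiable ℂ P := hP ▸ fun w =>
    DifferentiableAt.fun_sum fun n _ => FA.Signs.differentiable_term c n w
  have hd := differentiable_cleared K
  have hser : ∀ w : ℂ, 2 < w.re → LSeriesHasSum b w (C * riemannZeta (w - α) -
      e * (errReg K (w - 1) - deriv (cleared K) (w - 1) / cleared K (w - 1) / (w - 1)) - P w) := by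
    intro w hw
    have h := hasSum_psiErr K (z := w - 1) (by simp; linarith)
    have hre : 1 < (w - α).re := by simp; linarith
    have hζ : HasSum (fun n : ℕ => LSeries.term 1 (w - α) n) (riemannZeta (w - α)) := by
      rw [← LSeries_one_eq_riemannZeta hre]
      exact (LSeriesSummable_one_iff.2 hre).LSeriesHasSum
    have hcsum : LSeriesHasSum c w (C * riemannZeta (w - α) -
        e * (errReg K (w - 1) - deriv (cleared K) (w - 1) / cleared K (w - 1) / (w - 1))) := by
      refine ((hζ.mul_left (C : ℂ)).sub (h.mul_left (e : ℂ))).congr_fun fun n => ?_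
      rw [sub_add_cancel]
      rcases Nat.eq_zero_or_pos n with rfl | hn
      · simp [psiErr, psiK]
      have hn0 : (n : ℂ) ≠ 0 := Nat.cast_ne_zero.2 hn.ne'
      rw [LSeries.term_of_ne_zero hn.ne', LSeries.term_of_ne_zero hn.ne', Pi.one_apply, hc]
      push_cast
      rw [ofReal_cpow (Nat.cast_nonneg n), ofReal_natCast, cpow_neg, cpow_sub _ _ hn0,
        one_div_div]
      ring
    have h2 := FA.Signs.hasSum_removed (Finset.range N) hcsum.LSeriesSummable
    rw [hcsum.LSeries_eq] at h2
    rw [hb, hP]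
    exact h2
  obtain ⟨Den, hDen⟩ : ∃ Den : ℂ → ℂ,
      Den = fun w => (w - 1 - α) * (w - 1) * cleared K (w - 1) := ⟨_, rfl⟩
  obtain ⟨Num, hNum⟩ : ∃ Num : ℂ → ℂ, Num = fun w => (w - 1) * cleared K (w - 1) *
      (C * riemannZeta₁ (w - α) - (w - 1 - α) * (P w + e * errReg K (w - 1))) +
      e * (w - 1 - α) * deriv (cleared K) (w - 1) := ⟨_, rfl⟩
  have hlin : Differentiable ℂ fun w : ℂ => w - 1 - α :=
    (differentiable_id.sub_const 1).sub_const _
  have hsh : Differentiable ℂ fun w : ℂ => cleared K (w - 1) :=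
    hd.comp (differentiable_id.sub_const 1)
  have hDd : DifferentiableOn ℂ Den {w | α + 1 < w.re} :=
    hDen ▸ ((hlin.mul (differentiable_id.sub_const 1)).mul hsh).differentiableOn
  have hNd : DifferentiableOn ℂ Num {w | α + 1 < w.re} := by
    have hR : DifferentiableOn ℂ (fun w => errReg K (w - 1)) {w | α + 1 < w.re} :=
      (differentiableOn_errReg K hα.le).comp (differentiable_id.sub_const 1).differentiableOn
        fun w hw => by
          show α < (w - 1).re
          have : α + 1 < w.re := hw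
          simp
          linarith
    rw [hNum]
    exact (((differentiable_id.sub_const 1).mul hsh).differentiableOn.mul
      (((differentiable_riemannZeta₁.comp (differentiable_id.sub_const _)).const_mul
        _).differentiableOn.sub (hlin.differentiableOn.mul
          (hPd.differentiableOn.add (hR.const_mul _))))).add
      ((hlin.const_mul _).mul (hd.deriv.comp (differentiable_id.sub_const 1))).differentiableOn
  have hζ1 : ∀ w : ℂ, α + 1 < w.re → w - α ≠ 1 ∧ w - 1 - α ≠ 0 ∧ w - 1 ≠ 0 := fun w hw =>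
    ⟨fun h => by have := congrArg Complex.re h; simp at this; linarith,
      fun h => by have := congrArg Complex.re h; simp at this; linarith,
      fun h => by have := congrArg Complex.re h; simp at this; linarith⟩
  have hid : ∀ w : ℂ, 2 < w.re → Den w * LSeries b w = Num w := by
    intro w hw
    obtain ⟨h1, h2, h3⟩ := hζ1 w (by linarith)
    have hE := cleared_ne_zero_right K (s := w - 1) (by simp; linarith)
    rw [(hser w hw).LSeries_eq, riemannZeta_eq_inv_sub_mul h1,
      show w - α - 1 = w - 1 - α by ring]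
    simp only [hDen, hNum]
    field_simp
    ring
  have hD0 : ∀ x : ℝ, α + 1 < x → Den x ≠ 0 := by
    intro x hx
    rw [hDen]
    simp only
    rw [← ofReal_one, ← ofReal_sub, ← ofReal_sub]
    refine mul_ne_zero (mul_ne_zero (ofReal_ne_zero.2 (by linarith)) (ofReal_ne_zero.2
      (by linarith))) ?_
    rcases lt_or_ge (x - 1) 1 with hx1 | hx1
    · exact hreal _ (by linarith) hx1
    · exact cleared_ne_zero_right K (by simpa using hx1)
  have hL := fun (w : ℂ) (hw : α + 1 < w.re) => FA.OneSided.lSeriesSummable_of_nonneg hb0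
    (fun w hw => (hser w hw).LSeriesSummable) hid hNd hDd hD0 hw
  obtain ⟨Φ, hΦ⟩ : ∃ Φ : ℂ → ℝ → ℂ,
      Φ = fun (s : ℂ) (t : ℝ) => (t : ℂ) * LSeries b (s + t + 1) := ⟨_, rfl⟩
  have hlimit : ∀ s : ℂ, s.re = α → Tendsto (Φ s) (𝓝[>] 0)
      (𝓝 ((if s = α then (C : ℂ) else 0) +
        e * (analyticOrderNatAt (cleared K) s : ℂ) / s)) := by
    intro s hs
    have hs0 : s ≠ 0 := fun h => by simp [h] at hs; linarith
    obtain ⟨hE, hlim⟩ := tendsto_logDeriv K s
    have ht0 : Tendsto (fun t : ℝ => (t : ℂ)) (𝓝[>] 0) (𝓝 0) :=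
      (Complex.continuous_ofReal.tendsto' 0 0 Complex.ofReal_zero).mono_left nhdsWithin_le_nhds
    have hst : Tendsto (fun t : ℝ => s + t) (𝓝[>] 0) (𝓝 s) := by
      simpa using ht0.const_add s
    have hreg : ContinuousAt (fun z => (C : ℂ) * riemannZeta₀ (z + 1 - α) - e * errReg K z -
        P (z + 1)) s :=
      ((continuousAt_const.mul ((differentiable_riemannZeta₀.continuous.comp
        ((continuous_id.add continuous_const).sub continuous_const)).continuousAt)).sub
        (continuousAt_const.mul (differentiableAt_errReg K (by linarith)).continuousAt)).sub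
        (hPd.continuous.comp (continuous_id.add continuous_const)).continuousAt
    have hpole : Tendsto (fun t : ℝ => (t : ℂ) * ((C : ℂ) / (s + t - α))) (𝓝[>] 0)
        (𝓝 (if s = α then (C : ℂ) else 0)) := by
      split_ifs with hsa
      · refine tendsto_const_nhds.congr' ?_
        filter_upwards [eventually_mem_nhdsWithin] with t ht
        have htne : (t : ℂ) ≠ 0 := ofReal_ne_zero.2 (ne_of_gt (show (0 : ℝ) < t from ht))
        rw [hsa, add_sub_cancel_left]
        field_simp
      · have h2 := ht0.mul ((tendsto_const_nhds (x := (C : ℂ))).div (hst.sub_const (α : ℂ))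
          (sub_ne_zero.2 hsa))
        simpa using h2
    have h3 := (hpole.add (ht0.mul (hreg.tendsto.comp hst))).add
      ((hlim.const_mul (e : ℂ)).div hst hs0)
    rw [zero_mul, add_zero] at h3
    refine h3.congr' ?_
    filter_upwards [hE, eventually_mem_nhdsWithin] with t hEt ht
    have ht' : (0 : ℝ) < t := ht
    have hw : α + 1 < (s + t + 1).re := by simp [hs]; linarith
    obtain ⟨h1, h2, h4⟩ := hζ1 _ hw
    have h5 := (hL _ hw).2
    rw [hDen, hNum] at h5
    simp only [add_sub_cancel_right] at h5 h2 h4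
    have h7 : (s : ℂ) + t + 1 - α - 1 = s + t - α := by ring
    have h8 := congrArg (· / ((s + t - α) * (s + t) * cleared K (s + t))) h5
    simp only [mul_div_cancel_left₀ _ (mul_ne_zero (mul_ne_zero h2 h4) hEt)] at h8
    have hz1 : riemannZeta₁ (s + t + 1 - α) = (s + t - α) * riemannZeta₀ (s + t + 1 - α) + 1 := by
      have e1 := riemannZeta_eq_inv_sub_mul h1
      rw [riemannZeta_eq_inv_sub_add h1, h7] at e1
      field_simp at e1
      linear_combination -e1
    rw [hΦ]
    simp only [Function.comp_apply, h8, hz1, Pi.div_apply]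
    field_simp
    ring
  have hcmp : ∀ s : ℂ, s.re = α → ∀ t : ℝ, 0 < t → ‖Φ s t‖ ≤ (Φ α t).re := by
    intro s hs t ht
    have hq : α + 1 < (s + t + 1).re := by simp [hs]; linarith
    have hp : α + 1 < ((α : ℂ) + t + 1).re := by simp; linarith
    have h1 := (hL _ hq).1
    have h2 := (hL _ hp).1
    rw [hΦ]
    simp only [norm_mul, Complex.norm_real, Real.norm_of_nonneg ht.le, Complex.re_ofReal_mul]
    refine mul_le_mul_of_nonneg_left ?_ ht.le
    rw [LSeries, LSeries, Complex.re_tsum h2]
    refine (norm_tsum_le_tsum_norm h1.norm).trans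
      (Summable.tsum_le_tsum (fun n => ?_) h1.norm (Complex.reCLM.summable h2))
    rw [LSeries.norm_term_eq, show (s + t + 1).re = α + t + 1 by simp [hs],
      show (α : ℂ) + t + 1 = ((α + t + 1 : ℝ) : ℂ) by simp]
    rcases Nat.eq_zero_or_pos n with rfl | hn
    · simp
    obtain ⟨r, hr⟩ : ∃ r : ℝ, b n = r := ⟨(b n).re, Complex.eq_re_of_ofReal_le (hb0 n)⟩
    have hr0 : 0 ≤ r := by
      have := hb0 n
      rw [hr] at this
      exact Complex.zero_le_real.1 this
    rw [if_neg hn.ne', LSeries.term_of_ne_zero hn.ne', hr, ← Complex.ofReal_natCast,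
      ← Complex.ofReal_cpow (Nat.cast_nonneg n), ← Complex.ofReal_div, Complex.ofReal_re,
      Complex.norm_real, Real.norm_of_nonneg hr0]
  obtain ⟨M, hM⟩ : ∃ M : ℝ, M = C + e * analyticOrderNatAt (cleared K) (α : ℂ) / α := ⟨_, rfl⟩
  have hB : Tendsto (fun t => (Φ α t).re) (𝓝[>] 0) (𝓝 M) := by
    have h := (Complex.continuous_re.tendsto _).comp (hlimit α (ofReal_re α))
    rw [if_pos rfl, show (C : ℂ) + e * (analyticOrderNatAt (cleared K) (α : ℂ) : ℂ) / α =
      ((C + e * analyticOrderNatAt (cleared K) (α : ℂ) / α : ℝ) : ℂ) by push_cast; rfl,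
      Complex.ofReal_re, ← hM] at h
    exact h
  rw [← hM]
  refine ⟨ge_of_tendsto hB (eventually_mem_nhdsWithin.mono fun t ht =>
    (norm_nonneg _).trans (hcmp α (ofReal_re α) t ht)), fun ρ hρ him => ?_⟩
  have hρ0 : ρ ≠ 0 := fun h => him (by rw [h, zero_im])
  have hρα : ρ ≠ α := fun h => him (by rw [h, ofReal_im])
  have hA := (hlimit ρ hρ).norm
  rw [if_neg hρα, zero_add, norm_div, norm_mul, Complex.norm_real, Real.norm_eq_abs, he, one_mul,
    Complex.norm_natCast] at hA
  have hle := le_of_tendsto_of_tendsto hA hB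
    (eventually_mem_nhdsWithin.mono fun t ht => hcmp ρ hρ t ht)
  rwa [div_le_iff₀ (norm_pos_iff.2 hρ0), mul_comm] at hle

end FA.DedekindOscillation

end
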