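import Fermat.Agent.DedekindOscillation.Criterion
import Fermat.Agent.DedekindOscillation.Residue

/-!
# Schmidt's theorem for number fields

`ψ_K n - n < -c √n` infinitely often for every number field. Without a real zero in `(1/2, 1)`
the oscillation about `-2 m √n`, `m` the order at `1/2`, has both signs.
-/

set_option autoImplicit false
set_option linter.style.haveILetI false
set_option linter.unusedSectionVars false

noncomputable section

universe u

open Complex Filter Topology Set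
open NumberField Module
open FA.DedekindZeroCount (cleared differentiable_cleared cleared_spec cleared_ne_zero_right)
open scoped Real Classical

namespace FA.DedekindOscillation

variable (K : Type u) [Field K] [NumberField K]

/-- **A zero beyond `γ` forces oscillation beyond every `C n ^ γ`.** -/
theorem frequently_of_zero {γ : ℝ} (hγ : 0 ≤ γ) (hreal : ∀ x : ℝ, γ < x → x < 1 → cleared K x ≠ 0)
    {ρ : ℂ} (hρ : cleared K ρ = 0) (hγρ : γ < ρ.re) (C : ℝ) {e : ℝ} (he : e ≠ 0) :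
    ∃ᶠ n : ℕ in atTop, C * (n : ℝ) ^ γ < e * psiErr K n := by
  intro h
  have hγ1 : γ < 1 := hγρ.trans (lt_of_not_ge fun h1 => cleared_ne_zero_right K h1 hρ)
  exact cleared_ne_zero_of_one_sided K hγ hγ1 he hreal (C := C)
    (h.mono fun n hn => not_lt.1 hn) hγρ hρ

/-- **Oscillation about the contribution of `1/2`.** -/
theorem exists_frequently_centre (hreal : ∀ x : ℝ, 1 / 2 < x → x < 1 → cleared K x ≠ 0) :
    ∃ c : ℝ, 0 < c ∧ ∀ e : ℝ, |e| = 1 → ∃ᶠ n : ℕ in atTop,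
      c * √(n : ℝ) < e * (psiErr K n +
        2 * analyticOrderNatAt (cleared K) ((1 / 2 : ℝ) : ℂ) * √(n : ℝ)) := by
  obtain ⟨m, hm⟩ : ∃ m : ℝ, m = analyticOrderNatAt (cleared K) ((1 / 2 : ℝ) : ℂ) := ⟨_, rfl⟩
  rw [← hm]
  by_cases hright : ∃ ρ, cleared K ρ = 0 ∧ 1 / 2 < ρ.re
  · obtain ⟨ρ, hρ, hρr⟩ := hright
    refine ⟨1, one_pos, fun e he => ?_⟩
    have he0 : e ≠ 0 := fun h => by simp [h] at he
    refine (frequently_of_zero K one_half_pos.le hreal hρ hρr (1 - 2 * e * m) he0).mono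
      fun n hn => ?_
    rw [← Real.sqrt_eq_rpow] at hn
    linarith
  obtain ⟨ρ, ⟨hρ, h0, h1⟩, hne⟩ :=
    ((FA.DedekindZeroCount.infinite_stripZeros K).sdiff
      (finite_singleton ((1 / 2 : ℝ) : ℂ))).nonempty
  have hre : ρ.re = 1 / 2 := by
    refine le_antisymm (not_lt.1 fun h => hright ⟨ρ, hρ, h⟩) (not_lt.1 fun h => hright ?_)
    exact ⟨1 - ρ, (cleared_reflect K hρ h0 h1).1, by rw [sub_re, one_re]; linarith⟩
  have him : ρ.im ≠ 0 := fun h => hne (Set.mem_singleton_iff.2 (Complex.ext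
    (by rw [hre, ofReal_re]) (by rw [h, ofReal_im])))
  have hρ0 : 0 < ‖ρ‖ := norm_pos_iff.2 fun h => him (by rw [h, zero_im])
  refine ⟨1 / (2 * ‖ρ‖), by positivity, fun e he h => ?_⟩
  have hb : ∀ᶠ n : ℕ in atTop,
      e * psiErr K n ≤ (1 / (2 * ‖ρ‖) - 2 * e * m) * (n : ℝ) ^ (1 / 2 : ℝ) := h.mono fun n hn => by
    rw [not_lt] at hn
    rw [← Real.sqrt_eq_rpow]
    linarith
  have h2 := (residue_le K one_half_pos (by norm_num) he hreal hb).2 ρ hre him
  rw [← hm] at h2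
  have h3 : (1 : ℝ) ≤ analyticOrderNatAt (cleared K) ρ :=
    Nat.one_le_cast.2 (Nat.one_le_iff_ne_zero.2 (order_pos_of_zero K hρ))
  have h4 : ‖ρ‖ * (1 / (2 * ‖ρ‖) - 2 * e * m + e * m / (1 / 2)) = 1 / 2 := by field_simp; ring
  linarith

/-- **`ψ_K n < n - c √n` infinitely often.** -/
theorem exists_frequently_below :
    ∃ c : ℝ, 0 < c ∧ ∃ᶠ n : ℕ in atTop, psiErr K n < -(c * √(n : ℝ)) := by
  by_cases hreal : ∀ x : ℝ, 1 / 2 < x → x < 1 → cleared K x ≠ 0
  · obtain ⟨c, hc, h⟩ := exists_frequently_centre K hreal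
    refine ⟨c, hc, (h (-1) (by norm_num)).mono fun n hn => ?_⟩
    have := mul_nonneg (mul_nonneg two_pos.le (Nat.cast_nonneg (α := ℝ)
      (analyticOrderNatAt (cleared K) ((1 / 2 : ℝ) : ℂ)))) (Real.sqrt_nonneg (n : ℝ))
    linarith
  push Not at hreal
  obtain ⟨x, hx, hx1, hx0⟩ := hreal
  obtain ⟨S, hS⟩ : ∃ S : Set ℝ, S = {y : ℝ | 1 / 2 < y ∧ y < 1 ∧ cleared K y = 0} := ⟨_, rfl⟩
  have hSf : S.Finite := ((FA.DedekindZeroCount.finite_stripZeros K 0).preimage
    Complex.ofReal_injective.injOn).subset (hS ▸ fun y hy =>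
      ⟨hy.2.2, by simpa using lt_trans one_half_pos hy.1, by simpa using hy.2.1, by simp⟩)
  have hSne : hSf.toFinset.Nonempty := ⟨x, hSf.mem_toFinset.2 (hS ▸ ⟨hx, hx1, hx0⟩)⟩
  obtain ⟨β, hβ⟩ : ∃ β, β = hSf.toFinset.max' hSne := ⟨_, rfl⟩
  have hmem := hSf.mem_toFinset.1 (hβ ▸ hSf.toFinset.max'_mem hSne)
  rw [hS] at hmem
  obtain ⟨hβ2, hβ1, hβ0⟩ := hmem
  refine ⟨1, one_pos, fun h => ?_⟩
  have hb : ∀ᶠ n : ℕ in atTop, (-1 : ℝ) * psiErr K n ≤ 1 / 2 * (n : ℝ) ^ β := by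
    filter_upwards [h, tendsto_natCast_atTop_atTop.eventually
      ((tendsto_rpow_atTop (show 0 < β - 1 / 2 by linarith)).eventually_ge_atTop 2),
      eventually_gt_atTop 0] with n hn hbig hn0
    rw [not_lt] at hn
    have hn' : (0 : ℝ) < n := Nat.cast_pos.2 hn0
    have := mul_le_mul_of_nonneg_left hbig (Real.sqrt_nonneg (n : ℝ))
    rw [Real.sqrt_eq_rpow, ← Real.rpow_add hn', add_sub_cancel, ← Real.sqrt_eq_rpow] at this
    linarith
  have h0 := (residue_le K (by linarith) hβ1 (by norm_num) (fun y hy hy1 hy0 => absurd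
    (hβ ▸ hSf.toFinset.le_max' y (hSf.mem_toFinset.2 (hS ▸ ⟨lt_trans hβ2 hy, hy1, hy0⟩)))
    (not_le.2 hy)) hb).1
  have hm : (1 : ℝ) ≤ analyticOrderNatAt (cleared K) (β : ℂ) :=
    Nat.one_le_cast.2 (Nat.one_le_iff_ne_zero.2 (order_pos_of_zero K hβ0))
  have h1 : 1 ≤ (analyticOrderNatAt (cleared K) (β : ℂ) : ℝ) / β := by
    rw [le_div_iff₀ (by linarith)]
    linarith
  rw [neg_one_mul, neg_div] at h0
  linarith

end FA.DedekindOscillation

end
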